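import Mathlib

/-!
# S26, block A1 (scheme level): topology

A connected space which is locally irreducible is irreducible.
-/

set_option autoImplicit false

namespace Fermat.Agent.AVC

theorem irreducibleSpace_of_connected_of_locally {X : Type*} [TopologicalSpace X]
    [ConnectedSpace X]
    (h : ∀ x : X, ∃ U : Set X, IsOpen U ∧ x ∈ U ∧ IsPreirreducible U) :
    IrreducibleSpace X := by
  obtain ⟨x₀⟩ := (inferInstance : Nonempty X)
  obtain ⟨W₀, hW₀, hx₀, hirr₀⟩ := h x₀
  have hclopen : IsClopen (closure W₀) := by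
    refine ⟨isClosed_closure, ?_⟩
    rw [isOpen_iff_forall_mem_open]
    intro z hz
    obtain ⟨W, hW, hzW, hirr⟩ := h z
    refine ⟨W, ?_, hW, hzW⟩
    have hne : (W ∩ W₀).Nonempty := mem_closure_iff.mp hz W hW hzW
    have h1 : W ⊆ closure (W ∩ W₀) :=
      subset_closure_inter_of_isPreirreducible_of_isOpen hirr hW₀ hne
    exact h1.trans (closure_mono Set.inter_subset_right)
  have huniv : closure W₀ = Set.univ :=
    hclopen.eq_univ ⟨x₀, subset_closure hx₀⟩
  have : PreirreducibleSpace X := ⟨by rw [← huniv]; exact hirr₀.closure⟩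
  exact ⟨⟨x₀⟩⟩

end Fermat.Agent.AVC
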