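import Fermat.Agent.AVS.Stalk
import Fermat.Agent.AVC.Topo

/-!
# S26, block A1 (scheme level): charts of a smooth scheme over a field
-/

set_option autoImplicit false

noncomputable section

universe u

open CategoryTheory CategoryTheory.Limits AlgebraicGeometry
open Fermat.Agent.AVS

namespace Fermat.Agent.AVC

variable {K : Type u} [Field K] {A : Scheme.{u}} (f : A ⟶ Spec (CommRingCat.of K))

/-- every point has an affine neighbourhood whose ring is standard smooth of relative dimension
`g` over `K`. -/
theorem exists_chart (g : ℕ) [SmoothOfRelativeDimension g f] (ξ : A) :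
    ∃ V : A.Opens, IsAffineOpen V ∧ ξ ∈ V ∧
      (kSec f V).IsStandardSmoothOfRelativeDimension g := by
  obtain ⟨U, hU, V, hV, hξ, e, h⟩ :=
    SmoothOfRelativeDimension.exists_isStandardSmoothOfRelativeDimension (n := g) (f := f) ξ
  have hUtop : U = ⊤ := by
    ext y
    have hy : y = f ξ := Subsingleton.elim _ _
    simp only [TopologicalSpace.Opens.coe_top, Set.mem_univ, iff_true, hy]
    exact e hξ
  subst hUtop
  refine ⟨V, hV, hξ, ?_⟩
  have h1 : kSec f V =
      (f.appLE ⊤ V e).hom.comp (Scheme.ΓSpecIso (CommRingCat.of K)).inv.hom := by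
    rw [kSec, ← CommRingCat.hom_comp]
    rfl
  rw [h1]
  have h2 : (Scheme.ΓSpecIso (CommRingCat.of K)).inv.hom.IsStandardSmoothOfRelativeDimension 0 :=
    RingHom.IsStandardSmoothOfRelativeDimension.equiv
      (Scheme.ΓSpecIso (CommRingCat.of K)).symm.commRingCatIsoToRingEquiv
  have h3 := RingHom.IsStandardSmoothOfRelativeDimension.comp h h2
  rwa [add_zero] at h3

end Fermat.Agent.AVC

end
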