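import Fermat.Agent.AVC.Chart

/-!
# S26, block A1 (scheme level): stalks and residue fields in affine charts
-/

set_option autoImplicit false

noncomputable section

universe u

open CategoryTheory CategoryTheory.Limits AlgebraicGeometry
open Fermat.Agent.AVS

namespace Fermat.Agent.AVC

variable {K : Type u} [Field K] {A : Scheme.{u}} (f : A ⟶ Spec (CommRingCat.of K))

section

variable {V : A.Opens} (hV : IsAffineOpen V) {ξ : A} (hξ : ξ ∈ V)

/-- the prime of a point in an affine chart. -/
def chartPrime : Ideal Γ(A, V) := (hV.primeIdealOf ⟨ξ, hξ⟩).asIdeal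

instance chartPrime_isPrime : (chartPrime hV hξ).IsPrime := (hV.primeIdealOf ⟨ξ, hξ⟩).isPrime

/-- the stalk as localization of the chart. -/
def stalkEquiv : Localization.AtPrime (chartPrime hV hξ) ≃+* A.presheaf.stalk ξ :=
  letI := A.presheaf.algebra_section_stalk (U := V) ⟨ξ, hξ⟩
  haveI : IsLocalization.AtPrime (A.presheaf.stalk ξ) (chartPrime hV hξ) :=
    hV.isLocalization_stalk ⟨ξ, hξ⟩
  (IsLocalization.algEquiv (chartPrime hV hξ).primeCompl
    (Localization.AtPrime (chartPrime hV hξ)) (A.presheaf.stalk ξ)).toRingEquiv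

theorem stalkEquiv_algebraMap (s : Γ(A, V)) :
    stalkEquiv hV hξ (algebraMap _ _ s) = A.presheaf.germ V ξ hξ s := by
  letI := A.presheaf.algebra_section_stalk (U := V) ⟨ξ, hξ⟩
  haveI : IsLocalization.AtPrime (A.presheaf.stalk ξ) (chartPrime hV hξ) :=
    hV.isLocalization_stalk ⟨ξ, hξ⟩
  exact (IsLocalization.algEquiv (chartPrime hV hξ).primeCompl
    (Localization.AtPrime (chartPrime hV hξ)) (A.presheaf.stalk ξ)).commutes s

/-- the residue field in a chart. -/
def resEquiv : (chartPrime hV hξ).ResidueField ≃+* A.residueField ξ :=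
  IsLocalRing.ResidueField.mapEquiv (stalkEquiv hV hξ)

theorem resEquiv_algebraMap (s : Γ(A, V)) :
    resEquiv hV hξ (algebraMap _ _ s) = A.residue ξ (A.presheaf.germ V ξ hξ s) := by
  rw [IsScalarTower.algebraMap_apply Γ(A, V) (Localization.AtPrime (chartPrime hV hξ)),
    IsLocalRing.ResidueField.algebraMap_eq, ← stalkEquiv_algebraMap hV hξ]
  rfl

theorem chartPrime_genericPoint [IsIntegral A] (h : genericPoint A ∈ V) :
    chartPrime hV h = ⊥ := by
  have : Nonempty V := ⟨⟨_, h⟩⟩
  have h1 := hV.primeIdealOf_genericPoint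
  rw [chartPrime, h1, genericPoint_eq_bot_of_affine]
  rfl

theorem eq_genericPoint_of_chartPrime [IsIntegral A] (h : chartPrime hV hξ = ⊥) :
    ξ = genericPoint A := by
  have hne : Nonempty V := ⟨⟨_, hξ⟩⟩
  have hg : genericPoint A ∈ V :=
    ((genericPoint_spec A).mem_open_set_iff V.isOpen).mpr ⟨ξ, trivial, hξ⟩
  have h1 : hV.primeIdealOf ⟨ξ, hξ⟩ = hV.primeIdealOf ⟨genericPoint A, hg⟩ := by
    apply PrimeSpectrum.ext
    exact h.trans (chartPrime_genericPoint hV hg).symm
  have h2 := congrArg (fun y => hV.fromSpec y) h1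
  simp only [hV.fromSpec_primeIdealOf] at h2
  exact h2

end

end Fermat.Agent.AVC

end
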