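import Mathlib

/-!
# Étale algebras over polynomial rings: local structure

`S` étale over a normal domain `R`: the local rings of `S` are domains; for `R = K[T₁,…,T_g]`,
primes with residue field of transcendence degree `g` (resp. `g - 1`) have local rings which are
fields (resp. discrete valuation rings).
-/

set_option autoImplicit false
set_option linter.unusedSectionVars false

open TensorProduct

namespace Fermat.Agent.AVC

section Idem

/-- reduced Artinian rings are von Neumann regular -/
theorem exists_vnr {T : Type*} [CommRing T] [IsArtinianRing T] [IsReduced T] (a : T) :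
    ∃ c, a = a * a * c := by
  obtain ⟨n, hn⟩ := IsArtinian.monotone_stabilizes (R := T) (M := T)
    ⟨fun n => OrderDual.toDual (Ideal.span {a ^ n}), by
      intro i j hij
      show Ideal.span {a ^ j} ≤ Ideal.span {a ^ i}
      rw [Ideal.span_singleton_le_span_singleton]
      exact pow_dvd_pow a hij⟩
  have h1 : Ideal.span {a ^ n} = Ideal.span {a ^ (n + 1)} := hn (n + 1) (Nat.le_succ n)
  have h2 : a ^ n ∈ Ideal.span {a ^ (n + 1)} := by
    rw [← h1]; exact Ideal.mem_span_singleton_self _
  obtain ⟨c, hc⟩ := Ideal.mem_span_singleton.mp h2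
  refine ⟨c, ?_⟩
  have h3 : (a * (1 - a * c)) ^ (n + 1) = 0 := by
    have h4 : a ^ n * (1 - a * c) = 0 := by
      rw [mul_sub, mul_one, ← mul_assoc, ← pow_succ, ← hc, sub_self]
    rw [mul_pow, pow_succ a, pow_succ (1 - a * c)]
    calc a ^ n * a * ((1 - a * c) ^ n * (1 - a * c))
        = a ^ n * (1 - a * c) * (a * (1 - a * c) ^ n) := by ring
      _ = 0 := by rw [h4, zero_mul]
  have h5 : a * (1 - a * c) = 0 := pow_eq_zero_iff (n := n + 1) (by omega) |>.mp h3
  have h6 : a - a * a * c = 0 := by rw [← h5]; ring
  exact sub_eq_zero.mp h6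

variable (R : Type*) {S : Type*} [CommRing R] [IsDomain R] [IsIntegrallyClosed R] [CommRing S]
  [Algebra R S] [Algebra.Etale R S]

include R in
/-- zero divisors in an étale algebra over a normal domain are separated by idempotents -/
theorem exists_idem {a b : S} (hab : a * b = 0) :
    ∃ e : S, e * b = 0 ∧ (1 - e) * a = 0 := by
  let Q := FractionRing R
  let T := S ⊗[R] Q
  have hinj : Function.Injective (algebraMap S T) := by
    have : Function.Injective (algebraMap R Q) := IsFractionRing.injective R Q
    have h1 := Module.Flat.lTensor_preserves_injective_linearMap (M := S)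
      (Algebra.linearMap R Q) this
    have h2 : (algebraMap S T : S → T) =
        (LinearMap.lTensor S (Algebra.linearMap R Q)) ∘ (TensorProduct.rid R S).symm := by
      ext x
      simp [T]
      rfl
    rw [h2]
    exact h1.comp (TensorProduct.rid R S).symm.injective
  let _ : Algebra Q T := Algebra.TensorProduct.rightAlgebra
  have het : Algebra.Etale Q T := by
    have e : Q ⊗[R] S ≃ₐ[Q] T :=
      { Algebra.TensorProduct.comm R Q S with
        commutes' := fun r => rfl }
    exact Algebra.Etale.of_equiv e
  have hfin : Module.Finite Q T := Algebra.FormallyUnramified.finite_of_free Q T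
  have hart : IsArtinianRing T := isArtinian_of_tower Q inferInstance
  have hred : IsReduced T := Algebra.FormallyUnramified.isReduced_of_field Q T
  obtain ⟨c, hc⟩ := exists_vnr (algebraMap S T a)
  set A := algebraMap S T a with hA
  have hidem : (A * c) * (A * c) = A * c := by
    calc (A * c) * (A * c) = (A * A * c) * c := by ring
      _ = A * c := by rw [← hc]
  have hint : IsIntegral S (A * c) := by
    refine ⟨Polynomial.X ^ 2 - Polynomial.X, Polynomial.monic_X_pow_sub
      (lt_of_le_of_lt Polynomial.degree_X_le (by norm_num)), ?_⟩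
    simp [pow_two, hidem]
  -- the idempotent comes from `S`
  have hbij := TensorProduct.toIntegralClosure_bijective_of_smooth (R := R) (S := S) (B := Q)
  obtain ⟨e, he⟩ : ∃ e : S, algebraMap S T e = A * c := by
    obtain ⟨y, hy⟩ := hbij.2 ⟨A * c, hint⟩
    have hy' : Algebra.TensorProduct.map (.id S S) (integralClosure R Q).val y = A * c :=
      congrArg Subtype.val hy
    rw [← hy']
    clear hy hy'
    induction y with
    | zero => exact ⟨0, by simp⟩
    | add x y hx hy =>
      obtain ⟨e1, h1⟩ := hx
      obtain ⟨e2, h2⟩ := hy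
      exact ⟨e1 + e2, by rw [map_add, map_add, h1, h2]⟩
    | tmul s q =>
      obtain ⟨r, hr⟩ : ∃ r : R, algebraMap R Q r = q := by
        have := q.2
        exact IsIntegrallyClosed.isIntegral_iff.mp this
      refine ⟨r • s, ?_⟩
      rw [Algebra.TensorProduct.map_tmul, Algebra.TensorProduct.algebraMap_apply]
      simp only [AlgHom.coe_id, id_eq, Subalgebra.coe_val, ← hr]
      rw [Algebra.algebraMap_self_apply, TensorProduct.smul_tmul, Algebra.algebraMap_eq_smul_one]
  refine ⟨e, ?_, ?_⟩
  · apply hinj
    rw [map_mul, he, map_zero]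
    have : A * algebraMap S T b = 0 := by rw [hA, ← map_mul, hab, map_zero]
    calc A * c * algebraMap S T b = c * (A * algebraMap S T b) := by ring
      _ = 0 := by rw [this, mul_zero]
  · apply hinj
    rw [map_mul, map_sub, he, map_one, map_zero, ← hA]
    have : A - A * A * c = 0 := sub_eq_zero.mpr hc
    linear_combination this

include R in
/-- local rings of étale algebras over normal domains are domains -/
theorem isDomain_atPrime (q : Ideal S) [q.IsPrime] : IsDomain (Localization.AtPrime q) := by
  have : NoZeroDivisors (Localization.AtPrime q) := by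
    constructor
    intro x y hxy
    obtain ⟨a, s, rfl⟩ := IsLocalization.exists_mk'_eq q.primeCompl x
    obtain ⟨b, t, rfl⟩ := IsLocalization.exists_mk'_eq q.primeCompl y
    rw [← IsLocalization.mk'_mul, IsLocalization.mk'_eq_zero_iff] at hxy
    obtain ⟨⟨u, hu⟩, hu'⟩ := hxy
    simp only at hu'
    obtain ⟨e, he1, he2⟩ := exists_idem R (a := u * a) (b := b) (by rw [← hu']; ring)
    rcases Classical.em (e ∈ q) with heq | heq
    · left
      rw [IsLocalization.mk'_eq_zero_iff]
      refine ⟨⟨(1 - e) * u, ?_⟩, ?_⟩
      · apply q.primeCompl.mul_mem _ hu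
        intro h1
        apply (Ideal.IsPrime.ne_top ‹q.IsPrime›)
        rw [Ideal.eq_top_iff_one]
        have := q.add_mem heq h1
        simpa using this
      · show (1 - e) * u * a = 0
        rw [mul_assoc, he2]
    · right
      rw [IsLocalization.mk'_eq_zero_iff]
      exact ⟨⟨e, heq⟩, he1⟩
  exact NoZeroDivisors.to_isDomain _

/-- basic open neighbourhoods which are domains -/
theorem exists_away_isDomain [IsNoetherianRing S] (q : Ideal S) [q.IsPrime]
    (hq : IsDomain (Localization.AtPrime q)) :
    ∃ h : S, h ∉ q ∧ IsDomain (Localization.Away h) := by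
  let r := RingHom.ker (algebraMap S (Localization.AtPrime q))
  have hr : r.IsPrime := RingHom.ker_isPrime _
  have hrq : r ≤ q := by
    intro x hx
    rw [RingHom.mem_ker] at hx
    by_contra hxq
    have := (IsLocalization.map_units (Localization.AtPrime q) (⟨x, hxq⟩ : q.primeCompl))
    rw [hx] at this
    exact not_isUnit_zero this
  obtain ⟨s, hs⟩ := (isNoetherianRing_iff_ideal_fg S).mp ‹_› r
  have hk : ∀ x ∈ s, ∃ u ∉ q, u * x = 0 := by
    intro x hx
    have h1 : x ∈ r := by rw [← hs]; exact Ideal.subset_span hx
    rw [RingHom.mem_ker, IsLocalization.map_eq_zero_iff q.primeCompl] at h1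
    obtain ⟨⟨u, hu⟩, h2⟩ := h1
    exact ⟨u, hu, h2⟩
  choose! u hu hu' using hk
  let h := ∏ x ∈ s, u x
  have hh : h ∉ q := by
    intro h1
    obtain ⟨x, hx, h2⟩ := (Ideal.IsPrime.prod_mem_iff (hp := ‹q.IsPrime›)).mp h1
    exact hu x hx h2
  have hkill : ∀ x ∈ r, h * x = 0 := by
    intro x hx
    rw [← hs] at hx
    induction hx using Submodule.span_induction with
    | mem x hx =>
      obtain ⟨c, hc⟩ := Finset.dvd_prod_of_mem u hx
      rw [show h = u x * c from hc, mul_right_comm, hu' x hx, zero_mul]
    | zero => exact mul_zero _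
    | add x y _ _ hx hy => rw [mul_add, hx, hy, add_zero]
    | smul a x _ hx => rw [smul_eq_mul, mul_left_comm, hx, mul_zero]
  refine ⟨h, hh, ?_⟩
  have hhr : h ∉ r := fun h1 => hh (hrq h1)
  have hnt : Nontrivial (Localization.Away h) := by
    rw [← not_subsingleton_iff_nontrivial, IsLocalization.subsingleton_iff (M := Submonoid.powers h)]
    rintro ⟨n, hn⟩
    exact hhr (hr.mem_of_pow_mem n (by
      simp only at hn
      rw [hn]; exact r.zero_mem))
  have : NoZeroDivisors (Localization.Away h) := by
    constructor
    intro x y hxy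
    obtain ⟨a, s, rfl⟩ := IsLocalization.exists_mk'_eq (Submonoid.powers h) x
    obtain ⟨b, t, rfl⟩ := IsLocalization.exists_mk'_eq (Submonoid.powers h) y
    rw [← IsLocalization.mk'_mul, IsLocalization.mk'_eq_zero_iff] at hxy
    obtain ⟨⟨w, n, hn⟩, hw⟩ := hxy
    simp only at hn hw
    subst hn
    have h1 : h ^ n * (a * b) ∈ r := by rw [hw]; exact r.zero_mem
    have h2 : a * b ∈ r := (hr.mem_or_mem h1).resolve_left fun h3 => hhr (hr.mem_of_pow_mem n h3)
    rcases hr.mem_or_mem h2 with h3 | h3
    · left
      rw [IsLocalization.mk'_eq_zero_iff]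
      exact ⟨⟨h, 1, pow_one h⟩, hkill a h3⟩
    · right
      rw [IsLocalization.mk'_eq_zero_iff]
      exact ⟨⟨h, 1, pow_one h⟩, hkill b h3⟩
  exact NoZeroDivisors.to_isDomain _

end Idem

end Fermat.Agent.AVC
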