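import Fermat.Agent.AVC.EtRing

/-!
# Transcendence degrees of residue fields of étale algebras over polynomial rings
-/

set_option autoImplicit false
set_option linter.unusedSectionVars false

open TensorProduct Cardinal

universe u

namespace Fermat.Agent.AVC

section Trdeg

variable {K : Type u} [Field K]

/-- strict monotonicity of the transcendence degree -/
theorem trdeg_lt_of_surjective {B C : Type u} [CommRing B] [IsDomain B] [Algebra K B] [CommRing C]
    [IsDomain C] [Algebra K C] (φ : B →ₐ[K] C) (hφ : Function.Surjective φ)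
    (hker : ∃ b, b ≠ 0 ∧ φ b = 0) (hfin : Algebra.trdeg K B < ℵ₀) :
    Algebra.trdeg K C < Algebra.trdeg K B := by
  refine lt_of_le_of_ne (trdeg_le_of_surjective φ hφ) ?_
  intro heq
  obtain ⟨ι, x, hx⟩ := exists_isTranscendenceBasis' K C
  have hcard : #ι = Algebra.trdeg K C := hx.cardinalMk_eq_trdeg
  have hι : Finite ι := by
    rw [← Cardinal.lt_aleph0_iff_finite, hcard, heq]
    exact hfin
  choose y hy using fun i => hφ (x i)
  have hyi : AlgebraicIndependent K y := by
    rw [algebraicIndependent_iff]
    intro p hp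
    apply hx.1.eq_zero_of_aeval_eq_zero
    have h1 : x = fun i => φ (y i) := by ext i; exact (hy i).symm
    rw [h1, ← MvPolynomial.comp_aeval_apply, hp, map_zero]
  have hyb : IsTranscendenceBasis K y :=
    hyi.isTranscendenceBasis_of_trdeg_le_of_finite (by rw [hcard, heq])
  have halg : Algebra.IsAlgebraic (Algebra.adjoin K (Set.range y)) B := hyb.isAlgebraic
  obtain ⟨b, hb0, hb⟩ := hker
  obtain ⟨r, hr0, c, hc⟩ :=
    (halg.isAlgebraic b).exists_nonzero_dvd (mem_nonZeroDivisors_of_ne_zero hb0)
  have hr1 : φ (r : B) = 0 := by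
    have : (r : B) = b * c := hc
    rw [this, map_mul, hb, zero_mul]
  have hr2 : (r : B) ∈ (MvPolynomial.aeval (R := K) y).range := by
    rw [← Algebra.adjoin_range_eq_range_aeval]
    exact r.2
  obtain ⟨p, hp⟩ := hr2
  apply hr0
  apply Subtype.ext
  have hp' : MvPolynomial.aeval y p = (r : B) := hp
  have h2 : MvPolynomial.aeval x p = 0 := by
    have h1 : x = fun i => φ (y i) := by ext i; exact (hy i).symm
    rw [h1, ← MvPolynomial.comp_aeval_apply, hp', hr1]
  rw [hx.1.eq_zero_of_aeval_eq_zero p h2, map_zero] at hp'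
  rw [← hp']
  rfl

theorem trdeg_quotient (B : Type u) [CommRing B] [Algebra K B] (q : Ideal B) [q.IsPrime] :
    Algebra.trdeg K q.ResidueField = Algebra.trdeg K (B ⧸ q) := by
  have h1 := trdeg_add_eq K (B ⧸ q) (A := q.ResidueField)
  have h2 : Algebra.IsAlgebraic (B ⧸ q) q.ResidueField :=
    IsLocalization.isAlgebraic q.ResidueField (nonZeroDivisors (B ⧸ q))
  rw [← h1, trdeg_eq_zero (R := B ⧸ q) (A := q.ResidueField), add_zero]

variable {g : ℕ}

theorem trdeg_mvPolynomial : Algebra.trdeg K (MvPolynomial (Fin g) K) = g := by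
  rw [MvPolynomial.trdeg_of_isDomain]
  simp

theorem trdeg_quotient_le (p : Ideal (MvPolynomial (Fin g) K)) [p.IsPrime] :
    Algebra.trdeg K (MvPolynomial (Fin g) K ⧸ p) ≤ g := by
  rw [← trdeg_mvPolynomial (K := K)]
  exact trdeg_le_of_surjective (Ideal.Quotient.mkₐ K p) Ideal.Quotient.mk_surjective

/-- primes of `K[T]` with residue field of full transcendence degree -/
theorem eq_bot_of_trdeg (p : Ideal (MvPolynomial (Fin g) K)) [p.IsPrime]
    (h : (g : Cardinal) ≤ Algebra.trdeg K (MvPolynomial (Fin g) K ⧸ p)) : p = ⊥ := by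
  by_contra hp
  obtain ⟨b, hb, hb0⟩ := Submodule.exists_mem_ne_zero_of_ne_bot hp
  have := trdeg_lt_of_surjective (Ideal.Quotient.mkₐ K p) Ideal.Quotient.mk_surjective
    ⟨b, hb0, Ideal.Quotient.eq_zero_iff_mem.mpr hb⟩ (by
      rw [trdeg_mvPolynomial]; exact Cardinal.natCast_lt_aleph0)
  rw [trdeg_mvPolynomial] at this
  exact absurd h (not_le.mpr this)

/-- primes of `K[T]` with residue field of transcendence degree `g - 1` are principal -/
theorem exists_eq_span_of_trdeg (p : Ideal (MvPolynomial (Fin g) K)) [p.IsPrime] (hp : p ≠ ⊥)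
    (h : (g : Cardinal) ≤ Algebra.trdeg K (MvPolynomial (Fin g) K ⧸ p) + 1) :
    ∃ f, Prime f ∧ p = Ideal.span {f} := by
  obtain ⟨f, hfp, hf⟩ := Ideal.IsPrime.exists_mem_prime_of_ne_bot ‹p.IsPrime› hp
  refine ⟨f, hf, ?_⟩
  have hpr : (Ideal.span {f}).IsPrime := (Ideal.span_singleton_prime hf.ne_zero).mpr hf
  have hle : Ideal.span {f} ≤ p := (Ideal.span_singleton_le_iff_mem p).mpr hfp
  by_contra hne
  obtain ⟨b, hb, hb0⟩ := Set.exists_of_ssubset
    (Set.ssubset_iff_subset_ne.mpr ⟨hle, fun h => hne (SetLike.ext' h).symm⟩)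
  -- two strict inequalities
  have hlt1 : Algebra.trdeg K (MvPolynomial (Fin g) K ⧸ Ideal.span {f}) < g := by
    have := trdeg_lt_of_surjective (Ideal.Quotient.mkₐ K (Ideal.span {f}))
      Ideal.Quotient.mk_surjective ⟨f, hf.ne_zero, Ideal.Quotient.eq_zero_iff_mem.mpr
        (Ideal.mem_span_singleton_self f)⟩ (by
      rw [trdeg_mvPolynomial]; exact Cardinal.natCast_lt_aleph0)
    rwa [trdeg_mvPolynomial] at this
  have hlt2 : Algebra.trdeg K (MvPolynomial (Fin g) K ⧸ p) <
      Algebra.trdeg K (MvPolynomial (Fin g) K ⧸ Ideal.span {f}) := by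
    refine trdeg_lt_of_surjective (Ideal.Quotient.factorₐ K hle) (Ideal.Quotient.factor_surjective hle)
      ⟨Ideal.Quotient.mk _ b, ?_, ?_⟩ (hlt1.trans Cardinal.natCast_lt_aleph0)
    · intro h0
      exact hb0 (Ideal.Quotient.eq_zero_iff_mem.mp h0)
    · show Ideal.Quotient.factor hle (Ideal.Quotient.mk _ b) = 0
      rw [Ideal.Quotient.factor_mk]
      exact Ideal.Quotient.eq_zero_iff_mem.mpr hb
  obtain ⟨n, hn⟩ := Cardinal.lt_aleph0.mp (hlt1.trans Cardinal.natCast_lt_aleph0)
  obtain ⟨m, hm⟩ := Cardinal.lt_aleph0.mp ((hlt2.trans hlt1).trans Cardinal.natCast_lt_aleph0)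
  rw [hn] at hlt1 hlt2
  rw [hm] at hlt2 h
  norm_cast at hlt1 hlt2 h
  omega

end Trdeg

section Etale

variable {K : Type u} [Field K] {g : ℕ} {S : Type u} [CommRing S] [Algebra K S]
  [Algebra (MvPolynomial (Fin g) K) S] [IsScalarTower K (MvPolynomial (Fin g) K) S]
  [Algebra.Etale (MvPolynomial (Fin g) K) S]

theorem trdeg_residueField_aux (q : Ideal S) [q.IsPrime]
    (p : Ideal (MvPolynomial (Fin g) K)) [p.IsPrime] [q.LiesOver p] :
    Algebra.trdeg K q.ResidueField = Algebra.trdeg K (MvPolynomial (Fin g) K ⧸ p) ∧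
      p.map (algebraMap _ (Localization.AtPrime q)) =
        IsLocalRing.maximalIdeal (Localization.AtPrime q) := by
  letI := Localization.AtPrime.algebraOfLiesOver p q
  have h0 : Algebra.IsUnramifiedAt (MvPolynomial (Fin g) K) q := inferInstance
  constructor
  · have : Module.Finite p.ResidueField q.ResidueField := inferInstance
    have : IsScalarTower K p.ResidueField q.ResidueField := by
      refine IsScalarTower.of_algebraMap_eq fun x => ?_
      rw [IsScalarTower.algebraMap_apply K (MvPolynomial (Fin g) K) p.ResidueField,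
        ← IsScalarTower.algebraMap_apply (MvPolynomial (Fin g) K) p.ResidueField q.ResidueField,
        ← IsScalarTower.algebraMap_apply K (MvPolynomial (Fin g) K) q.ResidueField]
    have h1 := trdeg_add_eq K p.ResidueField (A := q.ResidueField)
    rw [trdeg_eq_zero (R := p.ResidueField) (A := q.ResidueField), add_zero] at h1
    rw [← h1, trdeg_quotient]
  · exact ((Algebra.isUnramifiedAt_iff_map_eq _ p q).mp h0).2

/-- the residue field of an étale algebra over `K[T]` has the same transcendence degree as the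
residue field of the image point -/
theorem trdeg_residueField (q : Ideal S) [q.IsPrime] :
    Algebra.trdeg K q.ResidueField =
      Algebra.trdeg K (MvPolynomial (Fin g) K ⧸ q.under (MvPolynomial (Fin g) K)) :=
  (trdeg_residueField_aux q (q.under (MvPolynomial (Fin g) K))).1

theorem map_under_eq_maximalIdeal (q : Ideal S) [q.IsPrime] :
    (q.under (MvPolynomial (Fin g) K)).map (algebraMap _ (Localization.AtPrime q)) =
      IsLocalRing.maximalIdeal (Localization.AtPrime q) :=
  (trdeg_residueField_aux q (q.under (MvPolynomial (Fin g) K))).2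

theorem trdeg_residueField_le (K : Type u) [Field K] {g : ℕ} {S : Type u} [CommRing S] [Algebra K S]
    [Algebra (MvPolynomial (Fin g) K) S] [IsScalarTower K (MvPolynomial (Fin g) K) S]
    [Algebra.Etale (MvPolynomial (Fin g) K) S] (q : Ideal S) [q.IsPrime] :
    Algebra.trdeg K q.ResidueField ≤ g := by
  rw [trdeg_residueField (K := K) (g := g)]
  exact trdeg_quotient_le _

/-- full transcendence degree: the local ring is a field -/
theorem isField_of_trdeg (q : Ideal S) [q.IsPrime]
    (h : (g : Cardinal) ≤ Algebra.trdeg K q.ResidueField) :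
    IsField (Localization.AtPrime q) := by
  rw [trdeg_residueField (K := K) (g := g)] at h
  have h1 := eq_bot_of_trdeg _ h
  rw [IsLocalRing.isField_iff_maximalIdeal_eq, ← map_under_eq_maximalIdeal (K := K) (g := g), h1,
    Ideal.map_bot]

/-- the local rings at the generic points have full transcendence degree -/
theorem trdeg_of_isField (q : Ideal S) [q.IsPrime] (h : IsField (Localization.AtPrime q)) :
    Algebra.trdeg K q.ResidueField = g := by
  rw [trdeg_residueField (K := K) (g := g)]
  have h1 : q.under (MvPolynomial (Fin g) K) = ⊥ := by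
    have h2 := map_under_eq_maximalIdeal (K := K) (g := g) q
    rw [IsLocalRing.isField_iff_maximalIdeal_eq.mp h] at h2
    rw [Ideal.map_eq_bot_iff_le_ker] at h2
    have h3 : Module.Flat (MvPolynomial (Fin g) K) (Localization.AtPrime q) :=
      Module.Flat.trans _ S _
    have h4 : Function.Injective
        (algebraMap (MvPolynomial (Fin g) K) (Localization.AtPrime q)) :=
      FaithfulSMul.algebraMap_injective _ _
    rw [(RingHom.injective_iff_ker_eq_bot _).mp h4] at h2
    exact le_bot_iff.mp h2
  rw [h1]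
  rw [← trdeg_mvPolynomial (K := K)]
  exact (AlgEquiv.quotientBot K (MvPolynomial (Fin g) K)).trdeg_eq

/-- transcendence degree at least `g - 1`: the local ring is a valuation ring -/
theorem valuationRing_of_trdeg (q : Ideal S) [q.IsPrime] [IsDomain (Localization.AtPrime q)]
    (h : (g : Cardinal) ≤ Algebra.trdeg K q.ResidueField + 1) :
    ValuationRing (Localization.AtPrime q) := by
  have hN : IsNoetherianRing S := Algebra.FiniteType.isNoetherianRing (MvPolynomial (Fin g) K) S
  have hN' : IsNoetherianRing (Localization.AtPrime q) :=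
    IsLocalization.isNoetherianRing q.primeCompl _ hN
  have hT := tfae_of_isNoetherianRing_of_isLocalRing_of_isDomain (Localization.AtPrime q)
  suffices hp : (IsLocalRing.maximalIdeal (Localization.AtPrime q)).IsPrincipal by
    exact (hT.out 4 1).mp hp
  rw [trdeg_residueField (K := K) (g := g)] at h
  rw [← map_under_eq_maximalIdeal (K := K) (g := g)]
  by_cases hb : q.under (MvPolynomial (Fin g) K) = ⊥
  · rw [hb, Ideal.map_bot]
    infer_instance
  · obtain ⟨f, -, hf⟩ := exists_eq_span_of_trdeg _ hb h
    rw [hf, Ideal.map_span, Set.image_singleton]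
    infer_instance

end Etale

end Fermat.Agent.AVC
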