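import Fermat.Agent.AVS.Points

/-!
# S26, block A1 (scheme level): points with values in fields, fields of definition
-/

set_option autoImplicit false

noncomputable section

universe u

open CategoryTheory CategoryTheory.Limits AlgebraicGeometry NeronModelInfra GoodReductionJacobian
open Fermat.Agent.AVS

namespace Fermat.Agent.AVC

variable {K : Type u} [Field K] {A : Scheme.{u}} (f : A ⟶ Spec (CommRingCat.of K))

/-- the structure homomorphism `K → O_{A,x}`. -/
def kStalk (x : A) : K →+* A.presheaf.stalk x :=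
  (Spec.preimage (A.fromSpecStalk x ≫ f)).hom

theorem specMap_kStalk (x : A) :
    Spec.map (CommRingCat.ofHom (kStalk f x)) = A.fromSpecStalk x ≫ f := by
  have h : CommRingCat.ofHom (kStalk f x) = Spec.preimage (A.fromSpecStalk x ≫ f) := rfl
  rw [h, Spec.map_preimage]

/-- the structure homomorphism `K → κ(x)`. -/
def kRes (x : A) : K →+* A.residueField x := (A.residue x).hom.comp (kStalk f x)

theorem specMap_kRes (x : A) :
    Spec.map (CommRingCat.ofHom (kRes f x)) = A.fromSpecResidueField x ≫ f := by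
  have h : CommRingCat.ofHom (kRes f x) = CommRingCat.ofHom (kStalk f x) ≫ A.residue x := rfl
  rw [h, Spec.map_comp, specMap_kStalk, Scheme.fromSpecResidueField, Category.assoc]

section LocalPt

variable {f}
variable {O : Type u} [CommRing O] [IsLocalRing O] {i : K →+* O}

/-- the image of the closed point. -/
def cpt (z : Pt f i) : A := z.1 (IsLocalRing.closedPoint O)

/-- the local homomorphism `O_{A, cpt z} → O` of a point with values in a local ring. -/
def cloc (z : Pt f i) : A.presheaf.stalk (cpt z) →+* O :=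
  (Scheme.stalkClosedPointTo z.1).hom

instance isLocalHom_cloc (z : Pt f i) : IsLocalHom (cloc z) :=
  Scheme.isLocalHom_stalkClosedPointTo (R := CommRingCat.of O) z.1

theorem spec_cloc (z : Pt f i) :
    Spec.map (CommRingCat.ofHom (cloc z)) ≫ A.fromSpecStalk (cpt z) = z.1 :=
  Scheme.Spec_stalkClosedPointTo_fromSpecStalk (R := CommRingCat.of O) z.1

theorem cloc_comp_kStalk (z : Pt f i) : (cloc z).comp (kStalk f (cpt z)) = i := by
  have h : Spec.map (CommRingCat.ofHom ((cloc z).comp (kStalk f (cpt z)))) =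
      Spec.map (CommRingCat.ofHom i) := by
    rw [CommRingCat.ofHom_comp, Spec.map_comp, specMap_kStalk, ← Category.assoc, spec_cloc, z.2]
  exact congrArg CommRingCat.Hom.hom (Spec.map_injective h)

/-- the point of a homomorphism from a stalk. -/
def stalkPt (x : A) {B : Type u} [CommRing B] {i : K →+* B} (φ : A.presheaf.stalk x →+* B)
    (h : φ.comp (kStalk f x) = i) : Pt f i :=
  ⟨Spec.map (CommRingCat.ofHom φ) ≫ A.fromSpecStalk x, by
    rw [Category.assoc, ← specMap_kStalk, ← Spec.map_comp, ← CommRingCat.ofHom_comp, h]⟩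

@[simp]
theorem stalkPt_coe (x : A) {B : Type u} [CommRing B] {i : K →+* B}
    (φ : A.presheaf.stalk x →+* B) (h : φ.comp (kStalk f x) = i) :
    (stalkPt x φ h : Pt f i).1 = Spec.map (CommRingCat.ofHom φ) ≫ A.fromSpecStalk x := rfl

theorem stalkPt_cloc (z : Pt f i) : stalkPt (cpt z) (cloc z) (cloc_comp_kStalk z) = z :=
  Subtype.ext (spec_cloc z)

theorem cpt_stalkPt (x : A) (φ : A.presheaf.stalk x →+* O) [IsLocalHom φ]
    (h : φ.comp (kStalk f x) = i) : cpt (stalkPt x φ h) = x := by
  rw [cpt, stalkPt_coe, Scheme.Hom.comp_apply]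
  have : Spec.map (CommRingCat.ofHom φ) (IsLocalRing.closedPoint O) =
      IsLocalRing.closedPoint (A.presheaf.stalk x) :=
    Spec_closedPoint (f := CommRingCat.ofHom φ)
  rw [this, Scheme.fromSpecStalk_closedPoint]

theorem mapPt_stalkPt (x : A) {B B' : Type u} [CommRing B] [CommRing B'] {i : K →+* B}
    {i' : K →+* B'} (φ : A.presheaf.stalk x →+* B)
    (h : φ.comp (kStalk f x) = i) (ψ : B →+* B') (h' : ψ.comp i = i') :
    mapPt ψ h' (stalkPt x φ h) =
      stalkPt x (ψ.comp φ) (by rw [RingHom.comp_assoc, h, h']) := by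
  apply Subtype.ext
  rw [mapPt_coe, stalkPt_coe, stalkPt_coe, CommRingCat.ofHom_comp, Spec.map_comp,
    Category.assoc]

/-- a `B`-point through `O_{A,x}` determines the homomorphism. -/
theorem stalkPt_injective (x : A) {B : Type u} [CommRing B] {i : K →+* B}
    {φ ψ : A.presheaf.stalk x →+* B} {h : φ.comp (kStalk f x) = i}
    {h' : ψ.comp (kStalk f x) = i}
    (e : stalkPt x φ h = stalkPt x ψ h') : φ = ψ := by
  have e1 : Spec.map (CommRingCat.ofHom φ) ≫ A.fromSpecStalk x =
      Spec.map (CommRingCat.ofHom ψ) ≫ A.fromSpecStalk x := congrArg Subtype.val e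
  rw [cancel_mono] at e1
  exact congrArg CommRingCat.Hom.hom (Spec.map_injective e1)

end LocalPt

section FieldPt

variable {f}
variable {Ω : Type u} [Field Ω] {i : K →+* Ω}

/-- the homomorphism `κ(cpt z) → Ω` of a point with values in a field. -/
def cres (z : Pt f i) : A.residueField (cpt z) →+* Ω :=
  (Scheme.descResidueField (K := Ω) (Scheme.stalkClosedPointTo z.1)).hom

theorem spec_cres (z : Pt f i) :
    Spec.map (CommRingCat.ofHom (cres z)) ≫ A.fromSpecResidueField (cpt z) = z.1 :=
  Scheme.descResidueField_stalkClosedPointTo_fromSpecResidueField Ω A z.1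

theorem cres_comp_residue (z : Pt f i) : (cres z).comp (A.residue (cpt z)).hom = cloc z :=
  congrArg CommRingCat.Hom.hom
    (Scheme.residue_descResidueField (K := Ω) (Scheme.stalkClosedPointTo z.1))

theorem cres_comp_kRes (z : Pt f i) : (cres z).comp (kRes f (cpt z)) = i := by
  rw [kRes, ← RingHom.comp_assoc, cres_comp_residue, cloc_comp_kStalk]

/-- the point of a homomorphism from a residue field. -/
def resPt (x : A) {B : Type u} [CommRing B] {i : K →+* B} (φ : A.residueField x →+* B)
    (h : φ.comp (kRes f x) = i) : Pt f i :=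
  ⟨Spec.map (CommRingCat.ofHom φ) ≫ A.fromSpecResidueField x, by
    rw [Category.assoc, ← specMap_kRes, ← Spec.map_comp, ← CommRingCat.ofHom_comp, h]⟩

@[simp]
theorem resPt_coe (x : A) {B : Type u} [CommRing B] {i : K →+* B}
    (φ : A.residueField x →+* B) (h : φ.comp (kRes f x) = i) :
    (resPt x φ h : Pt f i).1 = Spec.map (CommRingCat.ofHom φ) ≫ A.fromSpecResidueField x := rfl

theorem resPt_cres (z : Pt f i) : resPt (cpt z) (cres z) (cres_comp_kRes z) = z :=
  Subtype.ext (spec_cres z)

theorem cpt_resPt (x : A) (φ : A.residueField x →+* Ω)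
    (h : φ.comp (kRes f x) = i) : cpt (resPt x φ h) = x := by
  rw [cpt, resPt_coe, Scheme.Hom.comp_apply]
  exact Scheme.fromSpecResidueField_apply _ _

theorem mapPt_resPt (x : A) {B B' : Type u} [CommRing B] [CommRing B'] {i : K →+* B}
    {i' : K →+* B'} (φ : A.residueField x →+* B)
    (h : φ.comp (kRes f x) = i) (ψ : B →+* B') (h' : ψ.comp i = i') :
    mapPt ψ h' (resPt x φ h) =
      resPt x (ψ.comp φ) (by rw [RingHom.comp_assoc, h, h']) := by
  apply Subtype.ext
  rw [mapPt_coe, resPt_coe, resPt_coe, CommRingCat.ofHom_comp, Spec.map_comp,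
    Category.assoc]

theorem resPt_injective (x : A) {B : Type u} [CommRing B] {i : K →+* B}
    {φ ψ : A.residueField x →+* B} {h : φ.comp (kRes f x) = i}
    {h' : ψ.comp (kRes f x) = i}
    (e : resPt x φ h = resPt x ψ h') : φ = ψ := by
  have e1 : Spec.map (CommRingCat.ofHom φ) ≫ A.fromSpecResidueField x =
      Spec.map (CommRingCat.ofHom ψ) ≫ A.fromSpecResidueField x := congrArg Subtype.val e
  rw [cancel_mono] at e1
  exact congrArg CommRingCat.Hom.hom (Spec.map_injective e1)

/-- if `z` is the point of `φ : κ(x) → Ω`, the image of `cres z` is the image of `φ`. -/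
theorem cres_fieldRange (x : A) (φ : A.residueField x →+* Ω) (h : φ.comp (kRes f x) = i)
    (z : Pt f i) (hz : resPt x φ h = z) : (cres z).fieldRange = φ.fieldRange := by
  have hx : cpt z = x := by rw [← hz, cpt_resPt]
  subst hx
  have h1 : resPt (cpt z) φ h = resPt (cpt z) (cres z) (cres_comp_kRes z) := by
    rw [hz, resPt_cres]
  rw [resPt_injective (cpt z) h1]

theorem cpt_mapPt {Ω' : Type u} [Field Ω'] {i' : K →+* Ω'} (σ : Ω →+* Ω') (h : σ.comp i = i')
    (z : Pt f i) : cpt (mapPt σ h z) = cpt z := by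
  conv_lhs => rw [← resPt_cres z, mapPt_resPt]
  rw [cpt_resPt]

theorem cres_mapPt_fieldRange {Ω' : Type u} [Field Ω'] {i' : K →+* Ω'} (σ : Ω →+* Ω')
    (h : σ.comp i = i') (z : Pt f i) :
    (cres (mapPt σ h z)).fieldRange = (cres z).fieldRange.map σ := by
  have h1 : mapPt σ h z = resPt (cpt z) (σ.comp (cres z))
      (by rw [RingHom.comp_assoc, cres_comp_kRes, h]) := by
    conv_lhs => rw [← resPt_cres z, mapPt_resPt]
  rw [cres_fieldRange (cpt z) (σ.comp (cres z))
    (by rw [RingHom.comp_assoc, cres_comp_kRes, h]) _ h1.symm, RingHom.map_fieldRange]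

end FieldPt

section Fd

variable {f}
variable {Ω : Type u} [Field Ω] [Algebra K Ω]

/-- the field of definition of a point with values in a field. -/
def fieldDef (z : Pt f (algebraMap K Ω)) : IntermediateField K Ω :=
  (cres z).fieldRange.toIntermediateField (fun c =>
    ⟨kRes f (cpt z) c, congrArg (fun (i : K →+* Ω) => i c) (cres_comp_kRes z)⟩)

theorem mem_fieldDef (z : Pt f (algebraMap K Ω)) (a : Ω) :
    a ∈ fieldDef z ↔ ∃ b, cres z b = a := Iff.rfl

theorem fieldDef_map {Ω' : Type u} [Field Ω'] [Algebra K Ω'] (σ : Ω →ₐ[K] Ω')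
    (z : Pt f (algebraMap K Ω)) :
    fieldDef (mapPt (f := f) (i' := algebraMap K Ω') σ.toRingHom σ.comp_algebraMap z) =
      (fieldDef z).map σ := by
  ext a
  have h := cres_mapPt_fieldRange (f := f) (i' := algebraMap K Ω') σ.toRingHom σ.comp_algebraMap z
  change a ∈ (cres (mapPt (f := f) (i' := algebraMap K Ω') σ.toRingHom σ.comp_algebraMap
    z)).fieldRange ↔ _
  rw [h]
  rfl

theorem fieldDef_le_iff (z : Pt f (algebraMap K Ω)) (k : IntermediateField K Ω) :
    fieldDef z ≤ k ↔ ∃ z' : Pt f (algebraMap K k),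
      mapPt (f := f) (i' := algebraMap K Ω) k.val.toRingHom k.val.comp_algebraMap z' = z := by
  constructor
  · intro h
    have hmem : ∀ b, cres z b ∈ k := fun b => h ⟨b, rfl⟩
    let φ : A.residueField (cpt z) →+* k := (cres z).codRestrict k.toSubring hmem
    have hφ : k.val.toRingHom.comp φ = cres z := by ext b; rfl
    have hφ2 : φ.comp (kRes f (cpt z)) = algebraMap K k := by
      ext c
      exact congrArg (fun (i : K →+* Ω) => i c) (cres_comp_kRes z)
    refine ⟨resPt (cpt z) φ hφ2, ?_⟩
    rw [mapPt_resPt]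
    apply Subtype.ext
    rw [resPt_coe, hφ, spec_cres]
  · rintro ⟨z', rfl⟩
    rw [fieldDef_map]
    rintro _ ⟨b, -, rfl⟩
    exact b.2

/-- `κ(cpt z) ≃ K(z)` over `K`. -/
def resEquivFieldDef (z : Pt f (algebraMap K Ω)) :
    A.residueField (cpt z) ≃+* fieldDef z :=
  RingEquiv.ofBijective (((cres z).codRestrict (fieldDef z).toSubring
      (fun _ => ⟨_, rfl⟩) : A.residueField (cpt z) →+* (fieldDef z).toSubring))
    ⟨RingHom.injective _, fun ⟨_, b, hb⟩ => ⟨b, Subtype.ext hb⟩⟩

theorem resEquivFieldDef_kRes (z : Pt f (algebraMap K Ω)) (c : K) :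
    resEquivFieldDef z (kRes f (cpt z) c) = algebraMap K (fieldDef z) c := by
  apply Subtype.ext
  exact congrArg (fun (i : K →+* Ω) => i c) (cres_comp_kRes z)

end Fd

end Fermat.Agent.AVC

end
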