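import Fermat.Agent.AVC.EtTr

/-!
# Standard smooth algebras of relative dimension `g` over a field
-/

set_option autoImplicit false
set_option linter.unusedSectionVars false

open Cardinal

universe u

namespace Fermat.Agent.AVC

variable {K S : Type u} [Field K] [CommRing S] [Algebra K S]

/-- a standard smooth algebra is étale over a polynomial algebra -/
theorem exists_etale_structure (g : ℕ) [Algebra.IsStandardSmoothOfRelativeDimension g K S] :
    ∃ _ : Algebra (MvPolynomial (Fin g) K) S, IsScalarTower K (MvPolynomial (Fin g) K) S ∧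
      Algebra.Etale (MvPolynomial (Fin g) K) S := by
  obtain ⟨φ, hφ⟩ :=
    Algebra.IsStandardSmoothOfRelativeDimension.exists_etale_mvPolynomial g K S
  let _ := φ.toRingHom.toAlgebra
  have h : IsScalarTower K (MvPolynomial (Fin g) K) S :=
    IsScalarTower.of_algebraMap_eq' φ.comp_algebraMap.symm
  exact ⟨_, h, hφ⟩

section

variable (g : ℕ) [Algebra.IsStandardSmoothOfRelativeDimension g K S]

include K g

/-- (R0) local rings are domains -/
theorem stdSmooth_isDomain_atPrime (q : Ideal S) [q.IsPrime] :
    IsDomain (Localization.AtPrime q) := by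
  obtain ⟨_, _, _⟩ := exists_etale_structure (K := K) (S := S) g
  exact isDomain_atPrime (MvPolynomial (Fin g) K) q

theorem stdSmooth_isNoetherianRing : IsNoetherianRing S := by
  obtain ⟨_, _, _⟩ := exists_etale_structure (K := K) (S := S) g
  exact Algebra.FiniteType.isNoetherianRing (MvPolynomial (Fin g) K) S

/-- (R1) basic open neighbourhoods which are domains -/
theorem stdSmooth_exists_away (q : Ideal S) [q.IsPrime] :
    ∃ h, h ∉ q ∧ IsDomain (Localization.Away h) := by
  have := stdSmooth_isNoetherianRing (K := K) (S := S) g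
  exact exists_away_isDomain q (stdSmooth_isDomain_atPrime (K := K) g q)

/-- a standard smooth algebra over a field is reduced -/
theorem stdSmooth_isReduced : IsReduced S := by
  constructor
  intro x hx
  by_contra hx0
  obtain ⟨m, hm, hm'⟩ := Ideal.exists_le_maximal (Ideal.span {x}).annihilator (by
    intro h
    apply hx0
    rw [Ideal.eq_top_iff_one, Submodule.mem_annihilator] at h
    simpa using h x (Ideal.mem_span_singleton_self x))
  have hd := stdSmooth_isDomain_atPrime (K := K) g m
  have h1 : algebraMap S (Localization.AtPrime m) x = 0 := (hx.map _).eq_zero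
  rw [IsLocalization.map_eq_zero_iff m.primeCompl] at h1
  obtain ⟨⟨u, hu⟩, hux⟩ := h1
  apply hu
  apply hm'
  rw [Submodule.mem_annihilator]
  intro y hy
  obtain ⟨c, rfl⟩ := Ideal.mem_span_singleton.mp hy
  simp only at hux
  rw [smul_eq_mul, ← mul_assoc, hux, zero_mul]

/-- (R3') -/
theorem stdSmooth_isField_of_trdeg (q : Ideal S) [q.IsPrime]
    (h : (g : Cardinal) ≤ Algebra.trdeg K q.ResidueField) :
    IsField (Localization.AtPrime q) := by
  obtain ⟨_, _, _⟩ := exists_etale_structure (K := K) (S := S) g
  exact isField_of_trdeg q h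

/-- (R4') -/
theorem stdSmooth_valuationRing' (q : Ideal S) [q.IsPrime] [IsDomain (Localization.AtPrime q)]
    (h : (g : Cardinal) ≤ Algebra.trdeg K q.ResidueField + 1) :
    ValuationRing (Localization.AtPrime q) := by
  obtain ⟨_, _, _⟩ := exists_etale_structure (K := K) (S := S) g
  exact valuationRing_of_trdeg q h

end

variable {g : ℕ} [Algebra.IsStandardSmoothOfRelativeDimension g K S]

/-- (R2) -/
theorem stdSmooth_trdeg_le (q : Ideal S) [q.IsPrime] :
    Algebra.trdeg K q.ResidueField ≤ g := by
  obtain ⟨_, _, _⟩ := exists_etale_structure (K := K) (S := S) g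
  exact trdeg_residueField_le K q

/-- (R3'') -/
theorem stdSmooth_trdeg_of_isField (q : Ideal S) [q.IsPrime]
    (h : IsField (Localization.AtPrime q)) : Algebra.trdeg K q.ResidueField = g := by
  obtain ⟨_, _, _⟩ := exists_etale_structure (K := K) (S := S) g
  exact trdeg_of_isField q h

/-- (R3) -/
theorem stdSmooth_trdeg_eq_iff [IsDomain S] (q : Ideal S) [q.IsPrime] :
    Algebra.trdeg K q.ResidueField = g ↔ q = ⊥ := by
  constructor
  · intro h
    have h1 := stdSmooth_isField_of_trdeg g q h.ge
    rw [IsLocalRing.isField_iff_maximalIdeal_eq, ← Localization.AtPrime.map_eq_maximalIdeal] at h1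
    rw [Ideal.map_eq_bot_iff_le_ker] at h1
    have h2 : Function.Injective (algebraMap S (Localization.AtPrime q)) :=
      IsLocalization.injective _ q.primeCompl_le_nonZeroDivisors
    rw [(RingHom.injective_iff_ker_eq_bot _).mp h2] at h1
    exact le_bot_iff.mp h1
  · intro h
    apply stdSmooth_trdeg_of_isField
    subst h
    rw [IsLocalRing.isField_iff_maximalIdeal_eq, ← Localization.AtPrime.map_eq_maximalIdeal]
    exact Ideal.map_bot

/-- (R4) -/
theorem stdSmooth_valuationRing [IsDomain S] (q : Ideal S) [q.IsPrime]
    (h : (g : Cardinal) ≤ Algebra.trdeg K q.ResidueField + 1) :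
    ValuationRing (Localization.AtPrime q) :=
  stdSmooth_valuationRing' g q h

end Fermat.Agent.AVC
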