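import Fermat.Agent.AVC.Input
import Fermat.Agent.AVC.R

/-!
# S26, block A1: unconditional scheme-level output
-/

set_option autoImplicit false

noncomputable section

universe u

open CategoryTheory CategoryTheory.Limits AlgebraicGeometry
open Fermat.Agent.AVS

namespace Fermat.Agent.AVC

theorem ringFacts (K : Type u) [Field K] (g : ℕ) : RingFacts K g where
  r1 := fun _ _ _ _ q _ => stdSmooth_exists_away (K := K) g q
  r2 := fun _ _ _ _ q _ => stdSmooth_trdeg_le (g := g) q
  r3 := fun _ _ _ _ _ q _ => stdSmooth_trdeg_eq_iff q
  r4 := fun _ _ _ _ _ q _ h => stdSmooth_valuationRing q h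

variable {K : Type u} [Field K] {A : Scheme.{u}} (f : A ⟶ Spec (CommRingCat.of K))

/-- a connected smooth scheme over a field is integral. -/
theorem isIntegral (g : ℕ) [SmoothOfRelativeDimension g f] [ConnectedSpace A] : IsIntegral A :=
  isIntegral_of f (ringFacts K g)

/-- the scheme-level input of `AVS.avar`. -/
theorem input (g : ℕ) [SmoothOfRelativeDimension g f] [IsIntegral A] : Input f g :=
  input_of f (ringFacts K g)

end Fermat.Agent.AVC

end
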