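import Fermat.Agent.AVC.Scheme
import Fermat.Agent.AVS.Inst

/-!
# S26, block A1 (scheme level): the input of `AVS.avar` from the ring-level facts
-/

set_option autoImplicit false

noncomputable section

universe u

open CategoryTheory CategoryTheory.Limits AlgebraicGeometry
open Fermat.Agent.AVS

namespace Fermat.Agent.AVC

variable {K : Type u} [Field K] {A : Scheme.{u}} (f : A ⟶ Spec (CommRingCat.of K))

theorem input_of {g : ℕ} (hR : RingFacts K g) [SmoothOfRelativeDimension g f] [IsIntegral A] :
    Input f g where
  fg ξ := essFiniteType_kres f g ξ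
  trdeg_le ξ := trdeg_kres_le f hR ξ
  trdeg_eq ξ := (trdeg_kres_eq_iff f hR ξ).mp
  trdeg_gen := (trdeg_kres_eq_iff f hR (genericPoint A)).mpr rfl
  val ξ := valuationRing_kstalk f hR ξ

end Fermat.Agent.AVC

end
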