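import Fermat.Agent.AVC.ChartEquiv

/-!
# S26, block A1 (scheme level): integrality, residue fields, codimension one
-/

set_option autoImplicit false

noncomputable section

universe u

open CategoryTheory CategoryTheory.Limits AlgebraicGeometry
open Fermat.Agent.AVS

namespace Fermat.Agent.AVC

/-- the ring-level facts on standard smooth algebras used below. -/
structure RingFacts (K : Type u) [Field K] (g : ℕ) : Prop where
  r1 : ∀ (S : Type u) [CommRing S] [Algebra K S]
    [Algebra.IsStandardSmoothOfRelativeDimension g K S] (q : Ideal S) [q.IsPrime],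
    ∃ h : S, h ∉ q ∧ IsDomain (Localization.Away h)
  r2 : ∀ (S : Type u) [CommRing S] [Algebra K S]
    [Algebra.IsStandardSmoothOfRelativeDimension g K S] (q : Ideal S) [q.IsPrime],
    Algebra.trdeg K q.ResidueField ≤ g
  r3 : ∀ (S : Type u) [CommRing S] [Algebra K S]
    [Algebra.IsStandardSmoothOfRelativeDimension g K S] [IsDomain S] (q : Ideal S) [q.IsPrime],
    Algebra.trdeg K q.ResidueField = g ↔ q = ⊥
  r4 : ∀ (S : Type u) [CommRing S] [Algebra K S]
    [Algebra.IsStandardSmoothOfRelativeDimension g K S] [IsDomain S] (q : Ideal S) [q.IsPrime],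
    (g : Cardinal.{u}) ≤ Algebra.trdeg K q.ResidueField + 1 →
      ValuationRing (Localization.AtPrime q)

variable {K : Type u} [Field K] {A : Scheme.{u}} (f : A ⟶ Spec (CommRingCat.of K))

section Integral

theorem isPreirreducible_of_isDomain {W : A.Opens} (hW : IsAffineOpen W) [IsDomain Γ(A, W)] :
    IsPreirreducible (W : Set A) := by
  have h1 : Set.range hW.fromSpec = (W : Set A) := hW.range_fromSpec
  rw [← h1, ← Set.image_univ]
  have h2 : IsPreirreducible (Set.univ : Set (Spec Γ(A, W))) := by
    have : IrreducibleSpace (PrimeSpectrum Γ(A, W)) := inferInstance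
    exact this.toPreirreducibleSpace.isPreirreducible_univ
  exact h2.image _ hW.fromSpec.continuous.continuousOn

/-- every point has an affine neighbourhood with sections a domain. -/
theorem exists_domain_nhd {g : ℕ} (hR : RingFacts K g) [SmoothOfRelativeDimension g f] (ξ : A) :
    ∃ W : A.Opens, IsAffineOpen W ∧ ξ ∈ W ∧ IsDomain Γ(A, W) := by
  obtain ⟨V, hV, hξ, hs⟩ := exists_chart f g ξ
  letI := (kSec f V).toAlgebra
  haveI : Algebra.IsStandardSmoothOfRelativeDimension g K Γ(A, V) := hs
  obtain ⟨h, hh, hd⟩ := hR.r1 Γ(A, V) (chartPrime hV hξ)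
  refine ⟨A.basicOpen h, hV.basicOpen h, ?_, ?_⟩
  · rw [Scheme.mem_basicOpen _ _ _ hξ, ← stalkEquiv_algebraMap hV hξ]
    exact (IsLocalization.map_units (Localization.AtPrime (chartPrime hV hξ))
      (⟨h, hh⟩ : (chartPrime hV hξ).primeCompl)).map (stalkEquiv hV hξ)
  · haveI := hV.isLocalization_basicOpen h
    exact (IsLocalization.algEquiv (Submonoid.powers h) Γ(A, A.basicOpen h)
      (Localization.Away h)).toMulEquiv.isDomain _

theorem isDomain_stalk {g : ℕ} (hR : RingFacts K g) [SmoothOfRelativeDimension g f] (ξ : A) :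
    IsDomain (A.presheaf.stalk ξ) := by
  obtain ⟨W, hW, hξ, hd⟩ := exists_domain_nhd f hR ξ
  have h1 : IsDomain (Localization.AtPrime (chartPrime hW hξ)) :=
    IsLocalization.isDomain_localization (Ideal.primeCompl_le_nonZeroDivisors _)
  exact (stalkEquiv hW hξ).symm.toMulEquiv.isDomain _

/-- (i) a connected smooth scheme over a field is integral. -/
theorem isIntegral_of {g : ℕ} (hR : RingFacts K g) [SmoothOfRelativeDimension g f]
    [ConnectedSpace A] : IsIntegral A := by
  haveI hirr : IrreducibleSpace A := irreducibleSpace_of_connected_of_locally (fun ξ => by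
    obtain ⟨W, hW, hξ, hd⟩ := exists_domain_nhd f hR ξ
    exact ⟨W, W.isOpen, hξ, isPreirreducible_of_isDomain hW⟩)
  haveI : ∀ ξ : A, _root_.IsReduced (A.presheaf.stalk ξ) := fun ξ => by
    haveI := isDomain_stalk f hR ξ
    infer_instance
  haveI : AlgebraicGeometry.IsReduced A := isReduced_of_isReduced_stalk A
  exact isIntegral_of_irreducibleSpace_of_isReduced A

/-- connectedness of the total space from connectedness of the fibres. -/
theorem connectedSpace_of_fibres
    (h : ∀ s : Spec (CommRingCat.of K), _root_.IsConnected (f.base ⁻¹' {s})) :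
    ConnectedSpace A := by
  have h1 := h default
  have h2 : f.base ⁻¹' {(default : Spec (CommRingCat.of K))} = Set.univ := by
    ext x
    simp only [Set.mem_preimage, Set.mem_singleton_iff, Set.mem_univ, iff_true]
    exact Subsingleton.elim _ _
  rw [h2] at h1
  exact connectedSpace_iff_univ.mpr h1

end Integral

section Residue

variable {V : A.Opens} (hV : IsAffineOpen V) {ξ : A} (hξ : ξ ∈ V)

/-- the residue field in a chart, as an algebra equivalence. -/
def resAlgEquiv :
    letI := (kSec f V).toAlgebra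
    letI := (kRes f ξ).toAlgebra
    (chartPrime hV hξ).ResidueField ≃ₐ[K] A.residueField ξ :=
  letI := (kSec f V).toAlgebra
  letI := (kRes f ξ).toAlgebra
  AlgEquiv.ofRingEquiv (f := resEquiv hV hξ) (fun c => by
    rw [IsScalarTower.algebraMap_apply K Γ(A, V) (chartPrime hV hξ).ResidueField,
      resEquiv_algebraMap]
    have := germ_comp_kSec f V ξ hξ
    exact congrArg (fun (i : K →+* A.presheaf.stalk ξ) => A.residue ξ (i c)) this)

end Residue

/-- (ii) residue fields are finitely generated field extensions. -/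
theorem essFiniteType_kres (g : ℕ) [SmoothOfRelativeDimension g f] (ξ : A) :
    letI := (kRes f ξ).toAlgebra
    Algebra.EssFiniteType K (A.residueField ξ) := by
  obtain ⟨V, hV, hξ, hs⟩ := exists_chart f g ξ
  letI := (kSec f V).toAlgebra
  letI := (kRes f ξ).toAlgebra
  haveI : Algebra.IsStandardSmoothOfRelativeDimension g K Γ(A, V) := hs
  haveI : Algebra.IsStandardSmooth K Γ(A, V) :=
    Algebra.IsStandardSmoothOfRelativeDimension.isStandardSmooth g
  haveI : Algebra.EssFiniteType K Γ(A, V) := inferInstance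
  haveI : Algebra.EssFiniteType Γ(A, V) (chartPrime hV hξ).ResidueField := inferInstance
  haveI : Algebra.EssFiniteType K (chartPrime hV hξ).ResidueField :=
    Algebra.EssFiniteType.comp K Γ(A, V) _
  exact (Algebra.EssFiniteType.iff_of_algEquiv (resAlgEquiv f hV hξ)).mp this

/-- (iii) first half. -/
theorem trdeg_kres_le {g : ℕ} (hR : RingFacts K g) [SmoothOfRelativeDimension g f]
    (ξ : A) :
    letI := (kRes f ξ).toAlgebra
    Algebra.trdeg K (A.residueField ξ) ≤ g := by
  obtain ⟨V, hV, hξ, hs⟩ := exists_chart f g ξ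
  letI := (kSec f V).toAlgebra
  letI := (kRes f ξ).toAlgebra
  haveI : Algebra.IsStandardSmoothOfRelativeDimension g K Γ(A, V) := hs
  have h1 := hR.r2 Γ(A, V) (chartPrime hV hξ)
  rwa [← (resAlgEquiv f hV hξ).trdeg_eq]

/-- (iii) second half. -/
theorem trdeg_kres_eq_iff {g : ℕ} (hR : RingFacts K g) [SmoothOfRelativeDimension g f]
    [IsIntegral A] (ξ : A) :
    letI := (kRes f ξ).toAlgebra
    Algebra.trdeg K (A.residueField ξ) = g ↔ ξ = genericPoint A := by
  obtain ⟨V, hV, hξ, hs⟩ := exists_chart f g ξ
  letI := (kSec f V).toAlgebra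
  letI := (kRes f ξ).toAlgebra
  haveI : Algebra.IsStandardSmoothOfRelativeDimension g K Γ(A, V) := hs
  have hne : Nonempty V := ⟨⟨_, hξ⟩⟩
  have h1 := hR.r3 Γ(A, V) (chartPrime hV hξ)
  rw [← (resAlgEquiv f hV hξ).trdeg_eq, h1]
  refine ⟨eq_genericPoint_of_chartPrime hV hξ, fun h => ?_⟩
  subst h
  exact chartPrime_genericPoint hV hξ

/-- (iv) local rings in codimension at most one. -/
theorem valuationRing_kstalk {g : ℕ} (hR : RingFacts K g) [SmoothOfRelativeDimension g f]
    [IsIntegral A] (ξ : A) :
    letI := (kRes f ξ).toAlgebra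
    (g : Cardinal.{u}) ≤ Algebra.trdeg K (A.residueField ξ) + 1 →
      ValuationRing (A.presheaf.stalk ξ) := by
  obtain ⟨V, hV, hξ, hs⟩ := exists_chart f g ξ
  letI := (kSec f V).toAlgebra
  letI := (kRes f ξ).toAlgebra
  haveI : Algebra.IsStandardSmoothOfRelativeDimension g K Γ(A, V) := hs
  have hne : Nonempty V := ⟨⟨_, hξ⟩⟩
  intro h
  rw [← (resAlgEquiv f hV hξ).trdeg_eq] at h
  have h1 := hR.r4 Γ(A, V) (chartPrime hV hξ) h
  have h2 : IsDomain (A.presheaf.stalk ξ) := inferInstance
  haveI : IsDomain (Localization.AtPrime (chartPrime hV hξ)) :=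
    IsLocalization.isDomain_localization (Ideal.primeCompl_le_nonZeroDivisors _)
  haveI : PreValuationRing (A.presheaf.stalk ξ) := ⟨fun a b => ?_⟩
  · exact ValuationRing.mk
  obtain ⟨c, hc⟩ := h1.toPreValuationRing.cond ((stalkEquiv hV hξ).symm a) ((stalkEquiv hV hξ).symm b)
  refine ⟨stalkEquiv hV hξ c, ?_⟩
  rcases hc with hc | hc
  · left
    have := congrArg (stalkEquiv hV hξ) hc
    simpa using this
  · right
    have := congrArg (stalkEquiv hV hξ) hc
    simpa using this

end Fermat.Agent.AVC

end
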